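import Fermat.Agent.PBW.Module

/-!
# The Poincaré–Birkhoff–Witt basis

The action on multisets identifies the universal enveloping algebra with the free module on
multisets of basis indices, multisets corresponding to ordered monomials.
-/

set_option autoImplicit false

noncomputable section

namespace FA.PBW

open Module UniversalEnvelopingAlgebra

attribute [local instance 100] LieRing.ofAssociativeRing

variable {R L ι : Type*} [CommRing R] [LieRing L] [LieAlgebra R L] [LinearOrder ι]
  (b : Basis ι R L)

/-- The ordered monomial of a multiset. -/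
def monomial (s : Multiset ι) : UniversalEnvelopingAlgebra R L :=
  ((s.sort (· ≤ ·)).map fun i => UniversalEnvelopingAlgebra.ι R (b i)).prod

lemma monomial_zero : monomial b (0 : Multiset ι) = 1 := by simp [monomial]

lemma monomial_cons {k : ι} {t : Multiset ι} (hk : ∀ j ∈ t, k ≤ j) :
    monomial b (k ::ₘ t) = UniversalEnvelopingAlgebra.ι R (b k) * monomial b t := by
  rw [monomial, monomial, Multiset.sort_cons (r := (· ≤ ·)) (a := k) (s := t) hk, List.map_cons,
    List.prod_cons]

/-- From multisets to the enveloping algebra. -/
def toEnveloping : (Multiset ι →₀ R) →ₗ[R] UniversalEnvelopingAlgebra R L :=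
  Finsupp.linearCombination R (monomial b)

lemma toEnveloping_mono (s : Multiset ι) : toEnveloping b (mono R s) = monomial b s := by
  simp [toEnveloping, mono]

lemma toEnveloping_op_of_filt {n : ℕ}
    (h : ∀ (i : ι) (s : Multiset ι), Multiset.card s ≤ n →
      toEnveloping b (act b i s) = UniversalEnvelopingAlgebra.ι R (b i) * monomial b s)
    (x : L) {w : Multiset ι →₀ R} (hw : w ∈ filt R ι n) :
    toEnveloping b (op b x w) = UniversalEnvelopingAlgebra.ι R x * toEnveloping b w := by
  have key : toEnveloping b ∘ₗ (op b).flip w =
      LinearMap.mulRight R (toEnveloping b w) ∘ₗ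
        (UniversalEnvelopingAlgebra.ι R (L := L)).toLinearMap := b.ext fun i => by
    have hi : filt R ι n ≤ LinearMap.ker (toEnveloping b ∘ₗ op b (b i) -
        LinearMap.mulLeft R (UniversalEnvelopingAlgebra.ι R (b i)) ∘ₗ toEnveloping b) := by
      rw [filt, Finsupp.supported_eq_span_single, Submodule.span_le]
      rintro _ ⟨s, hs, rfl⟩
      rw [SetLike.mem_coe, LinearMap.mem_ker, LinearMap.sub_apply, LinearMap.comp_apply,
        LinearMap.comp_apply, LinearMap.mulLeft_apply, op_mono, toEnveloping_mono, h i s hs,
        sub_self]
    exact sub_eq_zero.1 (hi hw)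
  exact LinearMap.congr_fun key x

lemma toEnveloping_act (i : ι) (s : Multiset ι) :
    toEnveloping b (act b i s) = UniversalEnvelopingAlgebra.ι R (b i) * monomial b s := by
  induction hn : Multiset.card s using Nat.strong_induction_on generalizing i s with
  | _ n ih =>
    rcases le_or_split i s with h | ⟨k, t, rfl, hki, hk⟩
    · rw [act_of_le b h, toEnveloping_mono, monomial_cons b h]
    · rw [Multiset.card_cons] at hn
      have IH : ∀ (x : L) (w : Multiset ι →₀ R), w ∈ filt R ι (Multiset.card t) →
          toEnveloping b (op b x w) = UniversalEnvelopingAlgebra.ι R x * toEnveloping b w :=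
        fun x w hw => toEnveloping_op_of_filt b (fun i' s' hs' => ih _ (by omega) i' s' rfl) x hw
      have hle : ∀ j ∈ i ::ₘ t, k ≤ j := fun j hj => by
        rcases Multiset.mem_cons.1 hj with rfl | hj
        exacts [hki.le, hk j hj]
      have h1 : toEnveloping b (op b (b k) (act b i t)) =
          UniversalEnvelopingAlgebra.ι R (b k) *
            (UniversalEnvelopingAlgebra.ι R (b i) * monomial b t) := by
        rw [← ih _ (by omega) i t rfl,
          show act b i t = mono R (i ::ₘ t) + (act b i t - mono R (i ::ₘ t)) by abel,
          map_add, map_add, map_add, IH _ _ (act_sub_mem b i t), op_mono, act_of_le b hle,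
          toEnveloping_mono, toEnveloping_mono, monomial_cons b hle, mul_add]
      rw [act_cons b hk hki, map_add, h1, IH _ _ (mono_mem_filt le_rfl), toEnveloping_mono,
        monomial_cons b hk, LieHom.map_lie, LieRing.of_associative_ring_bracket, sub_mul,
        mul_assoc, mul_assoc]
      abel

lemma toEnveloping_op (x : L) (w : Multiset ι →₀ R) :
    toEnveloping b (op b x w) = UniversalEnvelopingAlgebra.ι R x * toEnveloping b w :=
  toEnveloping_op_of_filt b (n := w.support.sup Multiset.card) (fun i s _ => toEnveloping_act b i s)
    x ((Finsupp.mem_supported R w).2 fun _ hs => Finset.le_sup (f := Multiset.card) hs)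

/-- The representation of the enveloping algebra. -/
def envRep : UniversalEnvelopingAlgebra R L →ₐ[R] Module.End R (Multiset ι →₀ R) :=
  UniversalEnvelopingAlgebra.lift R (rep b)

lemma envRep_ι (x : L) : envRep b (UniversalEnvelopingAlgebra.ι R x) = op b x :=
  lift_ι_apply R (rep b) x

lemma toEnveloping_envRep (u : UniversalEnvelopingAlgebra R L) (w : Multiset ι →₀ R) :
    toEnveloping b (envRep b u w) = u * toEnveloping b w := by
  let S : Subalgebra R (UniversalEnvelopingAlgebra R L) :=
    { carrier := {u | ∀ w, toEnveloping b (envRep b u w) = u * toEnveloping b w}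
      mul_mem' := fun {u v} hu hv w => by
        rw [map_mul, Module.End.mul_apply, hu, hv, mul_assoc]
      add_mem' := fun {u v} hu hv w => by
        rw [map_add, LinearMap.add_apply, map_add, hu, hv, add_mul]
      algebraMap_mem' := fun r w => by
        rw [AlgHom.commutes, Module.algebraMap_end_apply, map_smul, Algebra.smul_def] }
  have hι : ∀ x, UniversalEnvelopingAlgebra.ι R x ∈ S := fun x w => by
    rw [envRep_ι, toEnveloping_op]
  let g : L →ₗ⁅R⁆ S :=
    { (UniversalEnvelopingAlgebra.ι R).toLinearMap.codRestrict S.toSubmodule hι with
      map_lie' := fun {x y} => Subtype.ext (by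
        show UniversalEnvelopingAlgebra.ι R ⁅x, y⁆ = _
        rw [LieHom.map_lie]
        rfl) }
  have h : S.val.comp (UniversalEnvelopingAlgebra.lift R g) =
      AlgHom.id R (UniversalEnvelopingAlgebra R L) := UniversalEnvelopingAlgebra.hom_ext R
    (LieHom.ext fun x => by
      show S.val (UniversalEnvelopingAlgebra.lift R g (UniversalEnvelopingAlgebra.ι R x)) = _
      rw [lift_ι_apply]
      rfl)
  have e : (UniversalEnvelopingAlgebra.lift R g u : UniversalEnvelopingAlgebra R L) = u :=
    AlgHom.congr_fun h u
  have hu : u ∈ S := by
    rw [← e]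
    exact (UniversalEnvelopingAlgebra.lift R g u).2
  exact hu w

lemma envRep_monomial (s : Multiset ι) : envRep b (monomial b s) (mono R 0) = mono R s := by
  induction hn : Multiset.card s generalizing s with
  | zero => rw [Multiset.card_eq_zero.1 hn, monomial_zero, map_one, Module.End.one_apply]
  | succ n ih =>
    have hne : s.toFinset.Nonempty := by
      rw [Multiset.toFinset_nonempty]
      rintro rfl
      simp at hn
    set k := s.toFinset.min' hne
    have hks : k ∈ s := Multiset.mem_toFinset.1 (s.toFinset.min'_mem hne)
    have hk : ∀ j ∈ s.erase k, k ≤ j := fun j hj =>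
      Finset.min'_le _ _ (Multiset.mem_toFinset.2 (Multiset.mem_of_mem_erase hj))
    have hc : Multiset.card (s.erase k) = n := by
      rw [Multiset.card_erase_of_mem hks, hn]; rfl
    rw [← Multiset.cons_erase hks, monomial_cons b hk, map_mul, Module.End.mul_apply, ih _ hc,
      envRep_ι, op_mono, act_of_le b hk]

/-- The enveloping algebra is free on multisets of basis indices. -/
def equivFree : UniversalEnvelopingAlgebra R L ≃ₗ[R] (Multiset ι →₀ R) :=
  LinearEquiv.ofLinearMap ((envRep b).toLinearMap.flip (mono R 0)) (toEnveloping b)
    (Finsupp.lhom_ext' fun s => LinearMap.ext_ring (by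
      show envRep b (toEnveloping b (mono R s)) (mono R 0) = mono R s
      rw [toEnveloping_mono, envRep_monomial]))
    (LinearMap.ext fun u => by
      show toEnveloping b (envRep b u (mono R 0)) = u
      rw [toEnveloping_envRep, toEnveloping_mono, monomial_zero, mul_one])

lemma equivFree_symm_mono (s : Multiset ι) : (equivFree b).symm (mono R s) = monomial b s :=
  toEnveloping_mono b s

lemma equivFree_ι (x : L) :
    equivFree b (UniversalEnvelopingAlgebra.ι R x) =
      Finsupp.mapDomain (fun i => ({i} : Multiset ι)) (b.repr x) := by
  suffices h : (equivFree b).toLinearMap ∘ₗ (UniversalEnvelopingAlgebra.ι R (L := L)).toLinearMap =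
      Finsupp.lmapDomain R R (fun i => ({i} : Multiset ι)) ∘ₗ b.repr.toLinearMap from
    LinearMap.congr_fun h x
  refine b.ext fun i => ?_
  show envRep b (UniversalEnvelopingAlgebra.ι R (b i)) (mono R 0) = _
  rw [envRep_ι, op_mono, act_of_le b (by simp)]
  simp [mono]

include b in
/-- The enveloping map is injective for a free Lie algebra. -/
theorem ι_injective_of_basis :
    Function.Injective (UniversalEnvelopingAlgebra.ι R (L := L)) := fun x y h => by
  have h' := congrArg (equivFree b) h
  rw [equivFree_ι, equivFree_ι] at h'
  exact b.repr.injective (Finsupp.mapDomain_injective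
    (f := fun i => ({i} : Multiset ι)) (fun _ _ => Multiset.singleton_inj.1) h')

/-- The basis of ordered monomials. -/
def pbwBasis : Basis (Multiset ι) R (UniversalEnvelopingAlgebra R L) := .ofRepr (equivFree b)

lemma pbwBasis_apply (s : Multiset ι) : pbwBasis b s = monomial b s := by
  rw [pbwBasis, Basis.coe_ofRepr]
  exact equivFree_symm_mono b s

end FA.PBW
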