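import Mathlib

/-!
# The Poincaré–Birkhoff–Witt module

For a Lie algebra with an ordered basis, the free module on multisets of basis indices carries an
action of the Lie algebra in which `i` sends `s` to `i ::ₘ s` whenever `i` is below every entry
of `s`. The action is defined by recursion on the size of the multiset.
-/

set_option autoImplicit false

noncomputable section

namespace FA.PBW

open Module

attribute [local instance 100] LieRing.ofAssociativeRing

variable {R L ι : Type*} [CommRing R] [LieRing L] [LieAlgebra R L] [LinearOrder ι]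
  (b : Basis ι R L)

/-- The basis vector of a multiset. -/
abbrev mono (R : Type*) [CommRing R] {ι : Type*} (s : Multiset ι) : Multiset ι →₀ R :=
  Finsupp.single s 1

/-- The operators of the elements of `L` determined by a table of values. -/
def opOf (F : ι → Multiset ι → (Multiset ι →₀ R)) :
    L →ₗ[R] (Multiset ι →₀ R) →ₗ[R] (Multiset ι →₀ R) :=
  b.constr R fun i => Finsupp.linearCombination R (F i)

omit [LinearOrder ι] in
lemma opOf_basis (F : ι → Multiset ι → (Multiset ι →₀ R)) (i : ι) (w : Multiset ι →₀ R) :
    opOf b F (b i) w = w.sum fun s r => r • F i s := by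
  rw [opOf, Basis.constr_basis, Finsupp.linearCombination_apply]

omit [LinearOrder ι] in
lemma opOf_mono (F : ι → Multiset ι → (Multiset ι →₀ R)) (i : ι) (s : Multiset ι) :
    opOf b F (b i) (mono R s) = F i s := by
  rw [opOf, Basis.constr_basis, Finsupp.linearCombination_single, one_smul]

/-- The table of values, correct on multisets of size at most `n`. -/
def table : ℕ → ι → Multiset ι → (Multiset ι →₀ R)
  | 0, i, s => mono R (i ::ₘ s)
  | n + 1, i, s =>
    if Multiset.card s ≤ n then table n i s
    else if h : ∀ j ∈ s, i ≤ j then mono R (i ::ₘ s)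
    else
      let j := s.toFinset.min' (by
        push Not at h
        obtain ⟨j, hj, -⟩ := h
        exact ⟨j, Multiset.mem_toFinset.2 hj⟩)
      mono R (i ::ₘ s) +
        opOf b (table n) (b j) (table n i (s.erase j) - mono R (i ::ₘ s.erase j)) +
        opOf b (table n) ⁅b i, b j⁆ (mono R (s.erase j))

/-- The action of a basis vector on a multiset. -/
def act (i : ι) (s : Multiset ι) : Multiset ι →₀ R := table b (Multiset.card s) i s

lemma table_of_le {n : ℕ} {s : Multiset ι} (i : ι) (hs : Multiset.card s ≤ n) :
    table b n i s = act b i s := by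
  induction n with
  | zero => rw [act, Nat.le_zero.1 hs]
  | succ n ih =>
    rcases hs.lt_or_eq with h | h
    · rw [table, if_pos (Nat.lt_succ_iff.1 h), ih (Nat.lt_succ_iff.1 h)]
    · rw [act, h]

/-- The action of the Lie algebra. -/
def op : L →ₗ[R] (Multiset ι →₀ R) →ₗ[R] (Multiset ι →₀ R) := opOf b (act b)

lemma op_mono (i : ι) (s : Multiset ι) : op b (b i) (mono R s) = act b i s :=
  opOf_mono b _ i s

/-- The span of the multisets of size at most `n`. -/
def filt (R : Type*) [CommRing R] (ι : Type*) (n : ℕ) : Submodule R (Multiset ι →₀ R) :=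
  Finsupp.supported R R {s | Multiset.card s ≤ n}

omit [LinearOrder ι] in
lemma mono_mem_filt {n : ℕ} {s : Multiset ι} (hs : Multiset.card s ≤ n) :
    mono R s ∈ filt R ι n :=
  Finsupp.single_mem_supported R 1 hs

omit [LinearOrder ι] in
lemma card_le_of_mem_filt {n : ℕ} {w : Multiset ι →₀ R} (hw : w ∈ filt R ι n) {s : Multiset ι}
    (hs : s ∈ w.support) : Multiset.card s ≤ n :=
  (Finsupp.mem_supported R w).1 hw hs

omit [LinearOrder ι] in
lemma filt_mono {m n : ℕ} (h : m ≤ n) : filt R ι m ≤ filt R ι n :=
  Finsupp.supported_mono fun _ hs => le_trans hs h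

lemma opOf_table_eq {n : ℕ} {w : Multiset ι →₀ R} (hw : w ∈ filt R ι n) (x : L) :
    opOf b (table b n) x w = op b x w := by
  have key : (opOf b (table b n)).flip w = (op b).flip w := b.ext fun i => by
    simp only [LinearMap.flip_apply, op, opOf_basis]
    exact Finset.sum_congr rfl fun s hs => by
      simp only [table_of_le b i (card_le_of_mem_filt hw hs)]
  exact LinearMap.congr_fun key x

lemma act_of_le {i : ι} {s : Multiset ι} (h : ∀ j ∈ s, i ≤ j) : act b i s = mono R (i ::ₘ s) := by
  rcases hn : Multiset.card s with _ | n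
  · rw [act, hn, table]
  · rw [act, hn, table, if_neg (by omega), dif_pos h]

lemma act_cons_aux {i k : ι} {t : Multiset ι} (hk : ∀ j ∈ t, k ≤ j) (hki : k < i)
    (hmem : act b i t - mono R (i ::ₘ t) ∈ filt R ι (Multiset.card t)) :
    act b i (k ::ₘ t) = mono R (i ::ₘ k ::ₘ t) + op b (b k) (act b i t - mono R (i ::ₘ t)) +
      op b ⁅b i, b k⁆ (mono R t) := by
  have hnot : ¬ ∀ j ∈ k ::ₘ t, i ≤ j := fun h => (h k (Multiset.mem_cons_self k t)).not_gt hki
  have hne : (k ::ₘ t).toFinset.Nonempty := ⟨k, by simp⟩
  have hmin : (k ::ₘ t).toFinset.min' hne = k :=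
    le_antisymm (Finset.min'_le _ _ (by simp)) (Finset.le_min' _ _ _ fun j hj => by
      rcases Multiset.mem_cons.1 (Multiset.mem_toFinset.1 hj) with rfl | hj
      exacts [le_rfl, hk j hj])
  rw [act, Multiset.card_cons, table, if_neg (by simp), dif_neg hnot]
  simp only [hmin, Multiset.erase_cons_head]
  rw [table_of_le b i le_rfl, opOf_table_eq b hmem, opOf_table_eq b (mono_mem_filt le_rfl)]

/-- Every multiset either lies above `i` or has a least entry below `i`. -/
lemma le_or_split (i : ι) (s : Multiset ι) :
    (∀ j ∈ s, i ≤ j) ∨ ∃ (k : ι) (t : Multiset ι), s = k ::ₘ t ∧ k < i ∧ ∀ j ∈ t, k ≤ j := by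
  by_cases h : ∀ j ∈ s, i ≤ j
  · exact Or.inl h
  · push Not at h
    obtain ⟨j, hj, hji⟩ := h
    have hne : s.toFinset.Nonempty := ⟨j, Multiset.mem_toFinset.2 hj⟩
    set k := s.toFinset.min' hne
    refine Or.inr ⟨k, s.erase k,
      (Multiset.cons_erase (Multiset.mem_toFinset.1 (s.toFinset.min'_mem hne))).symm,
      (Finset.min'_le _ _ (Multiset.mem_toFinset.2 hj)).trans_lt hji, fun l hl => ?_⟩
    exact Finset.min'_le _ _ (Multiset.mem_toFinset.2 (Multiset.mem_of_mem_erase hl))

/-- The action raises the size by one, with leading term `i ::ₘ s`. -/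
lemma act_sub_mem (i : ι) (s : Multiset ι) :
    act b i s - mono R (i ::ₘ s) ∈ filt R ι (Multiset.card s) := by
  induction hn : Multiset.card s using Nat.strong_induction_on generalizing i s with
  | _ n ih =>
    rcases le_or_split i s with h | ⟨k, t, rfl, hki, hk⟩
    · rw [act_of_le b h, sub_self]
      exact zero_mem _
    · rw [Multiset.card_cons] at hn
      have hmem := ih _ (by omega) i t rfl
      rw [act_cons_aux b hk hki hmem, add_assoc, add_sub_cancel_left]
      have key : ∀ (x : L) (w : Multiset ι →₀ R), w ∈ filt R ι (Multiset.card t) →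
          op b x w ∈ filt R ι n := by
        intro x w hw
        suffices h : ∀ j, op b (b j) w ∈ filt R ι n by
          have hle : ⊤ ≤ Submodule.comap ((op b).flip w) (filt R ι n) := by
            rw [← b.span_eq, Submodule.span_le]
            rintro _ ⟨j, rfl⟩
            exact h j
          exact hle (Submodule.mem_top (x := x))
        intro j
        rw [op, opOf_basis]
        refine Submodule.sum_mem _ fun u hu => Submodule.smul_mem _ _ ?_
        have hu' := card_le_of_mem_filt hw hu
        have h1 := filt_mono (by omega : Multiset.card u ≤ n) (ih _ (by omega) j u rfl)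
        have h2 : mono R (j ::ₘ u) ∈ filt R ι n := mono_mem_filt (by
          rw [Multiset.card_cons]; omega)
        simpa using add_mem h1 h2
      exact add_mem (key _ _ hmem) (key _ _ (mono_mem_filt le_rfl))

lemma act_cons {i k : ι} {t : Multiset ι} (hk : ∀ j ∈ t, k ≤ j) (hki : k < i) :
    act b i (k ::ₘ t) = op b (b k) (act b i t) + op b ⁅b i, b k⁆ (mono R t) := by
  rw [act_cons_aux b hk hki (act_sub_mem b i t), map_sub, op_mono b k (i ::ₘ t),
    act_of_le b (i := k) (s := i ::ₘ t) fun j hj => by
      rcases Multiset.mem_cons.1 hj with rfl | hj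
      exacts [hki.le, hk j hj], Multiset.cons_swap]
  abel

/-- The commutator defect of two elements on a vector. -/
def defect : L →ₗ[R] L →ₗ[R] (Multiset ι →₀ R) →ₗ[R] (Multiset ι →₀ R) :=
  LinearMap.mk₂ R (fun x y => op b x ∘ₗ op b y - op b y ∘ₗ op b x - op b ⁅x, y⁆)
    (fun x x' y => by
      simp only [map_add, add_lie, LinearMap.add_comp, LinearMap.comp_add]; abel)
    (fun r x y => by
      refine LinearMap.ext fun w => ?_; simp [smul_lie, smul_sub])
    (fun x y y' => by
      simp only [map_add, lie_add, LinearMap.add_comp, LinearMap.comp_add]; abel)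
    (fun r x y => by
      refine LinearMap.ext fun w => ?_; simp [lie_smul, smul_sub])

lemma defect_apply (x y : L) (w : Multiset ι →₀ R) :
    defect b x y w = op b x (op b y w) - op b y (op b x w) - op b ⁅x, y⁆ w := rfl

lemma defect_eq_zero_of_filt {n : ℕ}
    (h : ∀ (i j : ι) (s : Multiset ι), Multiset.card s ≤ n → defect b (b i) (b j) (mono R s) = 0)
    (x y : L) {w : Multiset ι →₀ R} (hw : w ∈ filt R ι n) : defect b x y w = 0 := by
  have h1 : ∀ i j, filt R ι n ≤ LinearMap.ker (defect b (b i) (b j)) := fun i j => by
    rw [filt, Finsupp.supported_eq_span_single, Submodule.span_le]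
    rintro _ ⟨s, hs, rfl⟩
    exact h i j s hs
  have h2 : ∀ i, (defect b (b i)).flip w = 0 := fun i => b.ext fun j => h1 i j hw
  have h3 : ((defect b).flip y).flip w = 0 := b.ext fun i => LinearMap.congr_fun (h2 i) y
  exact LinearMap.congr_fun h3 x

/-- The action is a representation on basis vectors. -/
lemma defect_mono (i j : ι) (s : Multiset ι) : defect b (b i) (b j) (mono R s) = 0 := by
  induction hn : Multiset.card s using Nat.strong_induction_on generalizing i j s with
  | _ n ih =>
    have caseA : ∀ (i j : ι) (s : Multiset ι), j < i → (∀ l ∈ s, j ≤ l) →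
        defect b (b i) (b j) (mono R s) = 0 := fun i j s hji hj => by
      rw [defect_apply, op_mono b j, act_of_le b hj, op_mono b i, op_mono b i, act_cons b hj hji]
      abel
    have caseB : ∀ (i j : ι) (s : Multiset ι), i < j → (∀ l ∈ s, i ≤ l) →
        defect b (b i) (b j) (mono R s) = 0 := fun i j s hij hi => by
      have h := caseA j i s hij hi
      rw [defect_apply] at h ⊢
      rw [← lie_skew, map_neg, LinearMap.neg_apply]
      linear_combination (norm := abel) -h
    rcases lt_trichotomy i j with hij | rfl | hij
    rotate_left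
    · rw [defect_apply, lie_self, map_zero, sub_self, LinearMap.zero_apply, sub_self]
    all_goals
      rcases le_or_split (min i j) s with h | ⟨k, t, rfl, hkm, hk⟩
      · first
          | exact caseA i j s hij (by rwa [min_eq_right hij.le] at h)
          | exact caseB i j s hij (by rwa [min_eq_left hij.le] at h)
      · rw [Multiset.card_cons] at hn
        have hki : k < i := hkm.trans_le (min_le_left i j)
        have hkj : k < j := hkm.trans_le (min_le_right i j)
        have IH : ∀ (x y : L) (w : Multiset ι →₀ R), w ∈ filt R ι (Multiset.card t) →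
            defect b x y w = 0 := fun x y w hw =>
          defect_eq_zero_of_filt b (fun i' j' s' hs' => ih _ (by omega) i' j' s' rfl) x y hw
        have hu : mono R t ∈ filt R ι (Multiset.card t) := mono_mem_filt le_rfl
        have top : ∀ p q : ι, k < p → k < q →
            defect b (b p) (b k) (op b (b q) (mono R t)) = 0 := by
          intro p q hp hq
          rw [op_mono, show act b q t = mono R (q ::ₘ t) + (act b q t - mono R (q ::ₘ t)) by abel,
            map_add, IH _ _ _ (act_sub_mem b q t), add_zero]
          exact caseA p k _ hp fun l hl => by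
            rcases Multiset.mem_cons.1 hl with rfl | hl
            exacts [hq.le, hk l hl]
        have e0 : mono R (k ::ₘ t) = op b (b k) (mono R t) := by rw [op_mono, act_of_le b hk]
        rw [e0]
        have a1 := IH (b j) (b k) _ hu
        have a2 := IH (b i) (b k) _ hu
        have a3 := top i j hki hkj
        have a4 := top j i hkj hki
        have a5 := IH (b i) ⁅b j, b k⁆ _ hu
        have a6 := IH (b j) ⁅b i, b k⁆ _ hu
        have a7 := IH ⁅b i, b j⁆ (b k) _ hu
        have a8 := congrArg (op b (b k)) (IH (b i) (b j) _ hu)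
        have a9 : op b ⁅⁅b i, b j⁆, b k⁆ (mono R t) =
            op b ⁅b i, ⁅b j, b k⁆⁆ (mono R t) - op b ⁅b j, ⁅b i, b k⁆⁆ (mono R t) := by
          rw [lie_lie, map_sub, LinearMap.sub_apply]
        simp only [defect_apply, map_sub, map_zero] at a1 a2 a3 a4 a5 a6 a7 a8 ⊢
        rw [sub_eq_zero, sub_eq_iff_eq_add] at a1 a2
        rw [a1, a2, map_add, map_add]
        linear_combination (norm := abel) a3 - a4 + a5 - a6 - a7 + a8 - a9

/-- The representation of `L` on the free module on multisets. -/
def rep : L →ₗ⁅R⁆ Module.End R (Multiset ι →₀ R) :=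
  { op b with
    map_lie' := fun {x y} => by
      refine LinearMap.ext fun w => ?_
      change op b ⁅x, y⁆ w = op b x (op b y w) - op b y (op b x w)
      have hw : ∃ n, w ∈ filt R ι n :=
        ⟨w.support.sup Multiset.card, (Finsupp.mem_supported R w).2 fun s hs =>
          Finset.le_sup (f := Multiset.card) hs⟩
      obtain ⟨n, hn⟩ := hw
      exact (sub_eq_zero.1
        (defect_eq_zero_of_filt b (fun i j s _ => defect_mono b i j s) x y hn)).symm }

lemma rep_apply (x : L) : rep b x = op b x := rfl

end FA.PBW
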